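import Mathlib

/-!
# S16 / UB / U-c: definitions (owner: helper11).  FROZEN.

Block U-c: for `p ≡ 3 mod 4`, `p ≥ 5`, there is no `f ≡ 1 mod 8` in `M₂(Γ₀(p))`
(norm–Sturm principle on `Γ₀(3p)` for `F = (E*₃(pz) - f) / 4`).

Every translate `F ∣ γ` is a combination of two "dilated" exponential series
`lam * ∑ u_k e(k (s₁ z / h + β₁)) + mu * ∑ w_k e(k (s₂ z / h + β₂))`, `h = 3p`  (`TwoSeries`);
its coefficient sequence in `y = e(z / h)` is `comb`.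
-/

set_option autoImplicit false

namespace Fermat.Agent.S16.UBc

open UpperHalfPlane

/-- `e(t) = exp (2 π i t)`. -/
noncomputable def ee (t : ℂ) : ℂ := Complex.exp (2 * (Real.pi : ℂ) * Complex.I * t)

/-- Dilation of a coefficient sequence: `dil s u (s * k) = u k`, and `0` off the multiples
of `s`. -/
def dil (s : ℕ) (u : ℕ → ℂ) (m : ℕ) : ℂ := if s ∣ m then u (m / s) else 0

/-- The coefficient sequence (in `y = e(z / h)`) of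
`lam * ∑ u_k e(k (s₁ z / h + β₁)) + mu * ∑ w_k e(k (s₂ z / h + β₂))`. -/
noncomputable def comb (u : ℕ → ℂ) (s₁ : ℕ) (β₁ lam : ℂ) (w : ℕ → ℂ) (s₂ : ℕ) (β₂ mu : ℂ)
    (m : ℕ) : ℂ :=
  lam * dil s₁ (fun k => u k * ee ((k : ℂ) * β₁)) m +
    mu * dil s₂ (fun k => w k * ee ((k : ℂ) * β₂)) m

/-- `g z = lam * ∑ u_k e(k (s₁ z / h + β₁)) + mu * ∑ w_k e(k (s₂ z / h + β₂))` for all
`z ∈ ℍ`. -/
def TwoSeries (g : ℍ → ℂ) (h : ℕ) (u : ℕ → ℂ) (s₁ : ℕ) (β₁ lam : ℂ) (w : ℕ → ℂ) (s₂ : ℕ)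
    (β₂ mu : ℂ) : Prop :=
  ∀ z : ℍ, ∃ S₁ S₂ : ℂ,
    HasSum (fun k : ℕ => u k * ee ((k : ℂ) * ((s₁ : ℂ) * (z : ℂ) / (h : ℂ) + β₁))) S₁ ∧
    HasSum (fun k : ℕ => w k * ee ((k : ℂ) * ((s₂ : ℂ) * (z : ℂ) / (h : ℂ) + β₂))) S₂ ∧
    g z = lam * S₁ + mu * S₂

/-- Hypotheses on the reduction data `(V, red)` used by U-c (satisfied by `Vl 2`, `red 2`). -/
structure RedHyp {κ : Type*} [CommRing κ] (p : ℕ) (V : Subring ℂ) (red : V →+* κ) : Prop where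
  inv3 : (3 : ℂ)⁻¹ ∈ V
  invp : (p : ℂ)⁻¹ ∈ V
  root : ∀ (n : ℕ) (ζ : ℂ), 0 < n → ζ ^ n = 1 → ζ ∈ V
  red2 : red 2 = 0

/-- Hypotheses on the coefficient sequence `e3` of `E*₃ = 1 + 12 ∑ σ'₃(k) q^k`. -/
structure E3Hyp (e3 : ℕ → ℂ) : Prop where
  zero : e3 0 = 1
  one : e3 1 = 12
  pos : ∀ k : ℕ, 1 ≤ k → ∃ n : ℕ, e3 k = 12 * (n : ℂ)

/-- Hypotheses on the integer coefficient sequence `a` of `f ≡ 1 mod 8`. -/
structure AHyp (a : ℕ → ℤ) : Prop where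
  zero : (8 : ℤ) ∣ a 0 - 1
  pos : ∀ k : ℕ, 1 ≤ k → (8 : ℤ) ∣ a k

/-- The datum required by the norm–Sturm principle for a translate `g` (other than the identity
coset): a nonzero scalar `c` and an expansion of `c * g` in `y = e(z / h)` with coefficients in
`V`, not all reducing to zero. -/
def NSData {κ : Type*} [CommRing κ] (V : Subring ℂ) (red : V →+* κ) (h : ℕ) (g : ℍ → ℂ) : Prop :=
  ∃ (c : ℂ) (B : ℕ → V), c ≠ 0 ∧ (∃ m, red (B m) ≠ 0) ∧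
    ∀ z : ℍ, HasSum (fun m : ℕ => (B m : ℂ) *
      Complex.exp (2 * (Real.pi : ℂ) * Complex.I * ((m : ℂ) * (z : ℂ) / (h : ℂ)))) (c * g z)

/-- The datum required by the norm–Sturm principle for the identity coset: as `NSData`, and
moreover the coefficients `B m`, `m < h * M`, reduce to zero. -/
def NSDataOne {κ : Type*} [CommRing κ] (V : Subring ℂ) (red : V →+* κ) (h M : ℕ) (g : ℍ → ℂ) :
    Prop :=
  ∃ (c : ℂ) (B : ℕ → V), c ≠ 0 ∧ (∃ m, red (B m) ≠ 0) ∧ (∀ m < h * M, red (B m) = 0) ∧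
    ∀ z : ℍ, HasSum (fun m : ℕ => (B m : ℂ) *
      Complex.exp (2 * (Real.pi : ℂ) * Complex.I * ((m : ℂ) * (z : ℂ) / (h : ℂ)))) (c * g z)

end Fermat.Agent.S16.UBc
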