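import Mathlib
import Fermat.Agent.S16.UBc.Defs

/-!
# S16 / UB / U-c: function-level translate formulas ⇒ `TwoSeries`, types (id) and (p ∣ c, 3 ∤ c)
(leaf: imports Mathlib + Defs only; no modular forms, only functions `ℍ → ℂ` and the slash action).
FROZEN STATEMENTS `twoSeries_id`, `twoSeries_yes_no` (both fully proved here; helper lemmas have
prefix `adA_`).

`Ef` = the function `E*₃`, `Rf z = Ef (p z)`, `ff` = the function `f`; `F = (1/4) • (Rf - ff)`.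
-/

set_option autoImplicit false

open UpperHalfPlane ModularForm
open scoped MatrixGroups ModularForm

namespace Fermat.Agent.S16.UBc

/-- The point `p * z` of the upper half plane (`p ≥ 1`). -/
theorem adA_exists_pt {p : ℕ} (hp : 0 < p) (z : ℍ) : ∃ w : ℍ, (w : ℂ) = (p : ℂ) * (z : ℂ) := by
  have him : 0 < ((p : ℂ) * (z : ℂ)).im := by
    have h : ((p : ℂ) * (z : ℂ)).im = (p : ℝ) * (z : ℂ).im := by
      simp [Complex.mul_im]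
    rw [h]
    exact mul_pos (Nat.cast_pos.mpr hp) z.2
  exact ⟨⟨(p : ℂ) * (z : ℂ), him⟩, rfl⟩

/-- Linearity of the weight-2 slash action of `SL(2, ℤ)`, pointwise, for `(1/4) • (Rf - ff)`. -/
theorem adA_slash_apply (Rf ff : ℍ → ℂ) (γ : SL(2, ℤ)) (z : ℍ) :
    (((1 / 4 : ℂ) • (Rf - ff)) ∣[(2 : ℤ)] γ) z =
      (1 / 4 : ℂ) * ((Rf ∣[(2 : ℤ)] γ) z - (ff ∣[(2 : ℤ)] γ) z) := by
  simp only [SL_slash_apply, Pi.smul_apply, Pi.sub_apply, smul_eq_mul]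
  ring

/-- Type (id): `F z = (1/4) E(p z) - (1/4) f(z)`. -/
theorem twoSeries_id {p : ℕ} (hp : 0 < p) (Ef Rf ff : ℍ → ℂ) (e3 a : ℕ → ℂ)
    (hE : ∀ w : ℍ, HasSum (fun k : ℕ => e3 k * ee ((k : ℂ) * (w : ℂ))) (Ef w))
    (hf : ∀ z : ℍ, HasSum (fun n : ℕ => a n * ee ((n : ℂ) * (z : ℂ))) (ff z))
    (hR : ∀ z w : ℍ, (w : ℂ) = (p : ℂ) * (z : ℂ) → Rf z = Ef w) :
    TwoSeries ((1 / 4 : ℂ) • (Rf - ff)) (3 * p) e3 (3 * p ^ 2) 0 (1 / 4) a (3 * p) 0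
      (-(1 / 4)) := by
  intro z
  obtain ⟨w, hw⟩ := adA_exists_pt hp z
  have hpC : (p : ℂ) ≠ 0 := Nat.cast_ne_zero.mpr hp.ne'
  have key1 : ((3 * p ^ 2 : ℕ) : ℂ) * (z : ℂ) / ((3 * p : ℕ) : ℂ) + 0 = (w : ℂ) := by
    rw [hw, add_zero]
    push_cast
    field_simp
  have key2 : ((3 * p : ℕ) : ℂ) * (z : ℂ) / ((3 * p : ℕ) : ℂ) + 0 = (z : ℂ) := by
    rw [add_zero]
    push_cast
    field_simp
  refine ⟨Ef w, ff z, ?_, ?_, ?_⟩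
  · rw [key1]
    exact hE w
  · rw [key2]
    exact hf z
  · simp only [Pi.smul_apply, Pi.sub_apply, smul_eq_mul, hR z w hw]
    ring

/-- Type (p ∣ c, 3 ∤ c): `f∣γ = f`, `(R∣γ)(z) = (E∣γ')(p z)`,
`(E∣γ')(w) = -(1/3) ∑ e3_{3k} e(k (w + i)/3)`. -/
theorem twoSeries_yes_no {p : ℕ} (hp : 0 < p) (Ef Rf ff : ℍ → ℂ) (e3 a : ℕ → ℂ)
    (γ γ' : SL(2, ℤ)) (i : ℤ) (he3 : ∀ k : ℕ, e3 (3 * k) = e3 k)
    (hEγ' : ∀ w : ℍ, HasSum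
      (fun k : ℕ => e3 (3 * k) * ee ((k : ℂ) * (((w : ℂ) + (i : ℂ)) / 3)))
      (-(3 : ℂ) * (Ef ∣[(2 : ℤ)] γ') w))
    (hf : ∀ z : ℍ, HasSum (fun n : ℕ => a n * ee ((n : ℂ) * (z : ℂ))) (ff z))
    (hfγ : ff ∣[(2 : ℤ)] γ = ff)
    (hRγ : ∀ z w : ℍ, (w : ℂ) = (p : ℂ) * (z : ℂ) →
      (Rf ∣[(2 : ℤ)] γ) z = (Ef ∣[(2 : ℤ)] γ') w) :
    TwoSeries (((1 / 4 : ℂ) • (Rf - ff)) ∣[(2 : ℤ)] γ) (3 * p) e3 (p ^ 2) ((i : ℂ) / 3)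
      (-(1 / 12)) a (3 * p) 0 (-(1 / 4)) := by
  intro z
  obtain ⟨w, hw⟩ := adA_exists_pt hp z
  have hpC : (p : ℂ) ≠ 0 := Nat.cast_ne_zero.mpr hp.ne'
  have key1 : ((p ^ 2 : ℕ) : ℂ) * (z : ℂ) / ((3 * p : ℕ) : ℂ) + (i : ℂ) / 3 =
      ((w : ℂ) + (i : ℂ)) / 3 := by
    rw [hw]
    push_cast
    field_simp
  have key2 : ((3 * p : ℕ) : ℂ) * (z : ℂ) / ((3 * p : ℕ) : ℂ) + 0 = (z : ℂ) := by
    rw [add_zero]
    push_cast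
    field_simp
  refine ⟨-(3 : ℂ) * (Ef ∣[(2 : ℤ)] γ') w, ff z, ?_, ?_, ?_⟩
  · rw [key1]
    have h := hEγ' w
    simp only [he3] at h
    exact h
  · rw [key2]
    exact hf z
  · rw [adA_slash_apply, hfγ, hRγ z w hw]
    ring

end Fermat.Agent.S16.UBc
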