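import Mathlib
import Fermat.Agent.S16.UBc.Defs

/-!
# S16 / UB / U-c: function-level translate formulas ⇒ `TwoSeries`, types (p ∤ c, 3 ∣ c) and
(p ∤ c, 3 ∤ c)  (leaf: imports Mathlib + Defs only; only functions `ℍ → ℂ` and the slash action).
FROZEN STATEMENTS (`twoSeries_no_yes`, `twoSeries_no_no`); helper lemmas have the prefix `adB_`.

`Ef` = the function `E*₃`, `Rf z = Ef (p z)`, `ff` = the function `f`, `ap k = a (p k)`;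
`F = (1/4) • (Rf - ff)`.
-/

set_option autoImplicit false

open UpperHalfPlane ModularForm
open scoped MatrixGroups ModularForm

namespace Fermat.Agent.S16.UBc

/-- Linearity of the slash action of `SL(2, ℤ)`, evaluated at a point. -/
theorem adB_slash_apply (Rf ff : ℍ → ℂ) (γ : SL(2, ℤ)) (z : ℍ) :
    (((1 / 4 : ℂ) • (Rf - ff)) ∣[(2 : ℤ)] γ) z =
      (1 / 4 : ℂ) * ((Rf ∣[(2 : ℤ)] γ) z - (ff ∣[(2 : ℤ)] γ) z) := by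
  rw [ModularForm.SL_smul_slash, sub_eq_add_neg, SlashAction.add_slash, SlashAction.neg_slash,
    Pi.smul_apply, Pi.add_apply, Pi.neg_apply, smul_eq_mul, sub_eq_add_neg]

/-- The point `(z + j) / p` of the upper half plane. -/
theorem adB_exists_point {p : ℕ} (hp : 0 < p) (z : ℍ) (j : ℤ) :
    ∃ w : ℍ, (w : ℂ) = ((z : ℂ) + (j : ℂ)) / (p : ℂ) := by
  have him : 0 < (((z : ℂ) + (j : ℂ)) / (p : ℂ)).im := by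
    have h1 : (((z : ℂ) + (j : ℂ)) / (p : ℂ)).im = z.im / (p : ℝ) := by
      rw [Complex.div_natCast_im, Complex.add_im, Complex.intCast_im, add_zero,
        UpperHalfPlane.coe_im]
    rw [h1]
    exact div_pos z.im_pos (Nat.cast_pos.mpr hp)
  exact ⟨⟨((z : ℂ) + (j : ℂ)) / (p : ℂ), him⟩, rfl⟩

/-- Type (p ∤ c, 3 ∣ c): `(f∣γ)(z) = -(1/p) ∑ a_{pk} e(k (z + j)/p)`,
`(R∣γ)(z) = p⁻² (E∣γ')((z + j')/p)`, `E∣γ' = E`. -/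
theorem twoSeries_no_yes {p : ℕ} (hp : 0 < p) (Ef Rf ff : ℍ → ℂ) (e3 ap : ℕ → ℂ)
    (γ γ' : SL(2, ℤ)) (j j' : ℤ)
    (hE : ∀ w : ℍ, HasSum (fun k : ℕ => e3 k * ee ((k : ℂ) * (w : ℂ))) (Ef w))
    (hEγ' : Ef ∣[(2 : ℤ)] γ' = Ef)
    (hfγ : ∀ z : ℍ, HasSum
      (fun k : ℕ => ap k * ee ((k : ℂ) * (((z : ℂ) + (j : ℂ)) / (p : ℂ))))
      (-(p : ℂ) * (ff ∣[(2 : ℤ)] γ) z))
    (hRγ : ∀ z w : ℍ, (w : ℂ) = ((z : ℂ) + (j' : ℂ)) / (p : ℂ) →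
      (Rf ∣[(2 : ℤ)] γ) z = (p : ℂ)⁻¹ ^ 2 * (Ef ∣[(2 : ℤ)] γ') w) :
    TwoSeries (((1 / 4 : ℂ) • (Rf - ff)) ∣[(2 : ℤ)] γ) (3 * p) e3 3 ((j' : ℂ) / (p : ℂ))
      ((p : ℂ)⁻¹ ^ 2 / 4) ap 3 ((j : ℂ) / (p : ℂ)) ((p : ℂ)⁻¹ / 4) := by
  have hp0 : (p : ℂ) ≠ 0 := Nat.cast_ne_zero.mpr hp.ne'
  intro z
  obtain ⟨w, hw⟩ := adB_exists_point hp z j'
  refine ⟨Ef w, -(p : ℂ) * (ff ∣[(2 : ℤ)] γ) z, ?_, ?_, ?_⟩
  · refine (hE w).congr_fun fun k => ?_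
    rw [hw]
    congr 2
    push_cast
    field_simp
  · refine (hfγ z).congr_fun fun k => ?_
    congr 2
    push_cast
    field_simp
  · rw [adB_slash_apply, hRγ z w hw, hEγ']
    field_simp
    ring

/-- Type (p ∤ c, 3 ∤ c): `(f∣γ)(z) = -(1/p) ∑ a_{pk} e(k (z + j)/p)`,
`(R∣γ)(z) = p⁻² (E∣γ')((z + j')/p)`, `(E∣γ')(w) = -(1/3) ∑ e3_{3k} e(k (w + i)/3)`. -/
theorem twoSeries_no_no {p : ℕ} (hp : 0 < p) (Ef Rf ff : ℍ → ℂ) (e3 ap : ℕ → ℂ)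
    (γ γ' : SL(2, ℤ)) (i j j' : ℤ) (he3 : ∀ k : ℕ, e3 (3 * k) = e3 k)
    (hEγ' : ∀ w : ℍ, HasSum
      (fun k : ℕ => e3 (3 * k) * ee ((k : ℂ) * (((w : ℂ) + (i : ℂ)) / 3)))
      (-(3 : ℂ) * (Ef ∣[(2 : ℤ)] γ') w))
    (hfγ : ∀ z : ℍ, HasSum
      (fun k : ℕ => ap k * ee ((k : ℂ) * (((z : ℂ) + (j : ℂ)) / (p : ℂ))))
      (-(p : ℂ) * (ff ∣[(2 : ℤ)] γ) z))
    (hRγ : ∀ z w : ℍ, (w : ℂ) = ((z : ℂ) + (j' : ℂ)) / (p : ℂ) →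
      (Rf ∣[(2 : ℤ)] γ) z = (p : ℂ)⁻¹ ^ 2 * (Ef ∣[(2 : ℤ)] γ') w) :
    TwoSeries (((1 / 4 : ℂ) • (Rf - ff)) ∣[(2 : ℤ)] γ) (3 * p) e3 1
      (((j' : ℂ) + (i : ℂ) * (p : ℂ)) / (3 * (p : ℂ))) (-((p : ℂ)⁻¹ ^ 2 / 12)) ap 3
      ((j : ℂ) / (p : ℂ)) ((p : ℂ)⁻¹ / 4) := by
  have hp0 : (p : ℂ) ≠ 0 := Nat.cast_ne_zero.mpr hp.ne'
  intro z
  obtain ⟨w, hw⟩ := adB_exists_point hp z j'
  refine ⟨-(3 : ℂ) * (Ef ∣[(2 : ℤ)] γ') w, -(p : ℂ) * (ff ∣[(2 : ℤ)] γ) z, ?_, ?_, ?_⟩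
  · refine (hEγ' w).congr_fun fun k => ?_
    rw [he3 k, hw]
    congr 2
    push_cast
    field_simp
    ring
  · refine (hfγ z).congr_fun fun k => ?_
    congr 2
    push_cast
    field_simp
  · rw [adB_slash_apply, hRγ z w hw]
    field_simp
    ring

end Fermat.Agent.S16.UBc
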