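import Mathlib
import Fermat.Agent.S16.UBc.Defs
import Fermat.Agent.S16.RED.Basic
import Fermat.Agent.S16.MF.Exp

/-!
# S16 / UB / U-c: instantiation of the abstract hypotheses `RedHyp`, `E3Hyp`
(leaf: imports Mathlib + Defs + RED/Basic + MF/Exp).
FROZEN STATEMENTS (do not change them; helper lemmas have the prefix `inst_`).
All proofs complete (owner: helper218).
-/

set_option autoImplicit false

namespace Fermat.Agent.S16.UBc

open Fermat.Agent.S16

/-- `(Vl 2, red 2)` satisfies `RedHyp p` for every odd prime `p`. -/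
theorem redHyp_two {p : ℕ} (hp : p.Prime) (hp2 : p ≠ 2) : RedHyp p (Vl 2) (red 2) := by
  refine ⟨?_, ?_, ?_, ?_⟩
  · have h : (((3 : ℕ) : ℂ))⁻¹ ∈ Vl 2 := inv_natCast_mem_Vl (by norm_num)
    rw [Nat.cast_ofNat] at h
    exact h
  · exact inv_natCast_mem_Vl ((Nat.coprime_primes hp Nat.prime_two).mpr hp2)
  · intro n ζ hn hζ
    exact rootOfUnity_mem_Vl 2 hn hζ
  · have h : red 2 (((2 : ℕ) : Vl 2)) = 0 := red_natCast_self 2
    rw [Nat.cast_ofNat] at h
    exact h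

theorem sigmaNat_three_one : sigmaNat 3 1 = 1 := by
  rw [sigmaNat_def, Nat.divisors_one, Finset.filter_singleton, if_pos (by norm_num),
    Finset.sum_singleton]

/-- The divisors of `3k` not divisible by `3` are the divisors of `k` not divisible by `3`. -/
theorem inst_filter_divisors_three_mul (k : ℕ) :
    (3 * k).divisors.filter (fun d => ¬ 3 ∣ d) = k.divisors.filter (fun d => ¬ 3 ∣ d) := by
  ext d
  simp only [Finset.mem_filter, Nat.mem_divisors]
  constructor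
  · rintro ⟨⟨hd, hk⟩, h3⟩
    have hcop : Nat.Coprime d 3 :=
      ((Nat.Prime.coprime_iff_not_dvd Nat.prime_three).mpr h3).symm
    refine ⟨⟨?_, ?_⟩, h3⟩
    · rw [mul_comm] at hd
      exact hcop.dvd_of_dvd_mul_right hd
    · intro h0
      exact hk (by rw [h0, mul_zero])
  · rintro ⟨⟨hd, hk⟩, h3⟩
    exact ⟨⟨Dvd.dvd.mul_left hd 3, mul_ne_zero (by norm_num) hk⟩, h3⟩

/-- `σ'₃(3k) = σ'₃(k)`. -/
theorem sigmaNat_three_mul (k : ℕ) : sigmaNat 3 (3 * k) = sigmaNat 3 k := by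
  rw [sigmaNat_def, sigmaNat_def, inst_filter_divisors_three_mul]

/-- The coefficient sequence of `E*₃` satisfies `E3Hyp` and is invariant under `k ↦ 3k`. -/
theorem e3Hyp_of (e3 : ℕ → ℂ) (h0 : e3 0 = 1)
    (hk : ∀ k : ℕ, 1 ≤ k → (((3 : ℕ) : ℂ) - 1) * e3 k = 24 * (sigmaNat 3 k : ℂ)) :
    E3Hyp e3 ∧ ∀ k : ℕ, e3 (3 * k) = e3 k := by
  have hk' : ∀ k : ℕ, 1 ≤ k → e3 k = 12 * (sigmaNat 3 k : ℂ) := by
    intro k h1
    have h := hk k h1
    have h2 : (2 : ℂ) * e3 k = 2 * (12 * (sigmaNat 3 k : ℂ)) := by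
      rw [Nat.cast_ofNat] at h
      linear_combination h
    exact mul_left_cancel₀ (two_ne_zero) h2
  refine ⟨⟨h0, ?_, ?_⟩, ?_⟩
  · rw [hk' 1 le_rfl, sigmaNat_three_one, Nat.cast_one, mul_one]
  · intro k h1
    exact ⟨sigmaNat 3 k, hk' k h1⟩
  · intro k
    rcases Nat.eq_zero_or_pos k with h | h
    · rw [h, mul_zero]
    · have h3 : 1 ≤ 3 * k := by omega
      rw [hk' (3 * k) h3, hk' k h, sigmaNat_three_mul]

end Fermat.Agent.S16.UBc
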