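import Mathlib
import Fermat.Agent.S16.UBc.Defs

/-!
# S16 / UB / U-c: the series calculus for `TwoSeries` / `comb`  (leaf; imports Mathlib + Defs only).
FROZEN STATEMENTS (do not change them; helper lemmas have the prefix `series_`).
-/

set_option autoImplicit false

namespace Fermat.Agent.S16.UBc

open UpperHalfPlane

theorem ee_zero : ee 0 = 1 := by
  simp [ee]

theorem ee_add (s t : ℂ) : ee (s + t) = ee s * ee t := by
  simp only [ee]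
  rw [← Complex.exp_add]
  congr 1
  ring

theorem ee_nat_mul (k : ℕ) (β : ℂ) : ee ((k : ℂ) * β) = ee β ^ k := by
  simp only [ee]
  rw [← Complex.exp_nat_mul]
  congr 1
  ring

/-- `e(j / n)` is an `n`-th root of unity (`j ∈ ℤ`, `n ≥ 1`). -/
theorem ee_intCast_div_pow (j : ℤ) (n : ℕ) (hn : 0 < n) : ee ((j : ℂ) / (n : ℂ)) ^ n = 1 := by
  simp only [ee]
  rw [← Complex.exp_nat_mul]
  have hn' : (n : ℂ) ≠ 0 := Nat.cast_ne_zero.mpr hn.ne'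
  have h : (n : ℂ) * (2 * (Real.pi : ℂ) * Complex.I * ((j : ℂ) / (n : ℂ)))
      = (j : ℂ) * (2 * (Real.pi : ℂ) * Complex.I) := by
    field_simp
  rw [h]
  exact Complex.exp_int_mul_two_pi_mul_I j

theorem ee_ne_zero (t : ℂ) : ee t ≠ 0 :=
  Complex.exp_ne_zero _

theorem dil_zero (s : ℕ) (u : ℕ → ℂ) : dil s u 0 = u 0 := by
  simp [dil]

theorem dil_mul (s : ℕ) (hs : 0 < s) (u : ℕ → ℂ) (k : ℕ) : dil s u (s * k) = u k := by
  simp [dil, Nat.mul_div_cancel_left k hs]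

theorem dil_of_not_dvd (s : ℕ) (u : ℕ → ℂ) (m : ℕ) (h : ¬ s ∣ m) : dil s u m = 0 := by
  simp [dil, h]

theorem dil_one (u : ℕ → ℂ) (m : ℕ) : dil 1 u m = u m := by
  simp [dil]

theorem comb_zero (u : ℕ → ℂ) (s₁ : ℕ) (β₁ lam : ℂ) (w : ℕ → ℂ) (s₂ : ℕ) (β₂ mu : ℂ) :
    comb u s₁ β₁ lam w s₂ β₂ mu 0 = lam * u 0 + mu * w 0 := by
  simp [comb, dil_zero, ee_zero]

/-- For `m ≥ 1`: if `c * f k ∈ V` for all `k ≥ 1`, then `c * dil s f m ∈ V`. -/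
theorem series_mul_dil_mem (V : Subring ℂ) (s : ℕ) (f : ℕ → ℂ) (c : ℂ)
    (hf : ∀ k : ℕ, 1 ≤ k → c * f k ∈ V) (m : ℕ) (hm : 1 ≤ m) : c * dil s f m ∈ V := by
  by_cases hd : s ∣ m
  · rw [dil, if_pos hd]
    apply hf
    obtain ⟨t, rfl⟩ := hd
    rcases Nat.eq_zero_or_pos s with rfl | hs
    · simp at hm
    · rw [Nat.mul_div_cancel_left t hs]
      rcases Nat.eq_zero_or_pos t with rfl | ht
      · simp at hm
      · exact ht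
  · rw [dil_of_not_dvd s f m hd, mul_zero]
    exact V.zero_mem

/-- For `m ≥ 1` each of the two contributions to `comb … m` is either `0` or `lam * u k * ρ₁ ^ k`
(resp. `mu * w k * ρ₂ ^ k`) with `k ≥ 1`; hence a subring containing all these products contains
`comb … m`. -/
theorem comb_mem_of_pos (V : Subring ℂ) (u : ℕ → ℂ) (s₁ : ℕ) (β₁ lam : ℂ) (w : ℕ → ℂ) (s₂ : ℕ)
    (β₂ mu : ℂ)
    (h₁ : ∀ k : ℕ, 1 ≤ k → lam * (u k * ee ((k : ℂ) * β₁)) ∈ V)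
    (h₂ : ∀ k : ℕ, 1 ≤ k → mu * (w k * ee ((k : ℂ) * β₂)) ∈ V) (m : ℕ) (hm : 1 ≤ m) :
    comb u s₁ β₁ lam w s₂ β₂ mu m ∈ V := by
  exact V.add_mem (series_mul_dil_mem V s₁ _ lam h₁ m hm) (series_mul_dil_mem V s₂ _ mu h₂ m hm)

/-- Reindexing one dilated exponential series along `k ↦ s * k`. -/
theorem series_hasSum_dil (s : ℕ) (hs : 0 < s) (u : ℕ → ℂ) (β z : ℂ) (h : ℕ) (S : ℂ)
    (hS : HasSum (fun k : ℕ => u k * ee ((k : ℂ) * ((s : ℂ) * z / (h : ℂ) + β))) S) :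
    HasSum (fun m : ℕ => dil s (fun k => u k * ee ((k : ℂ) * β)) m * ee ((m : ℂ) * z / (h : ℂ)))
      S := by
  have hinj : Function.Injective (fun k : ℕ => s * k) :=
    fun a b hab => Nat.eq_of_mul_eq_mul_left hs hab
  rw [← hinj.hasSum_iff]
  · convert hS using 1
    funext k
    simp only [Function.comp_apply]
    rw [dil_mul s hs, mul_assoc, ← ee_add]
    congr 2
    push_cast
    ring
  · intro m hm
    have hd : ¬ s ∣ m := by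
      rintro ⟨k, rfl⟩
      exact hm ⟨k, rfl⟩
    rw [dil_of_not_dvd s _ m hd, zero_mul]

/-- The expansion in `y = e(z / h)` of a `TwoSeries`. -/
theorem TwoSeries.hasSum {g : ℍ → ℂ} {h : ℕ} {u : ℕ → ℂ} {s₁ : ℕ} {β₁ lam : ℂ} {w : ℕ → ℂ}
    {s₂ : ℕ} {β₂ mu : ℂ} (H : TwoSeries g h u s₁ β₁ lam w s₂ β₂ mu) (hs₁ : 0 < s₁)
    (hs₂ : 0 < s₂) (z : ℍ) :
    HasSum (fun m : ℕ => comb u s₁ β₁ lam w s₂ β₂ mu m *
      Complex.exp (2 * (Real.pi : ℂ) * Complex.I * ((m : ℂ) * (z : ℂ) / (h : ℂ)))) (g z) := by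
  obtain ⟨S₁, S₂, h1, h2, hg⟩ := H z
  rw [hg]
  have e1 := (series_hasSum_dil s₁ hs₁ u β₁ (z : ℂ) h S₁ h1).mul_left lam
  have e2 := (series_hasSum_dil s₂ hs₂ w β₂ (z : ℂ) h S₂ h2).mul_left mu
  have hfun : (fun m : ℕ => comb u s₁ β₁ lam w s₂ β₂ mu m *
      Complex.exp (2 * (Real.pi : ℂ) * Complex.I * ((m : ℂ) * (z : ℂ) / (h : ℂ)))) =
      fun m : ℕ => lam * (dil s₁ (fun k => u k * ee ((k : ℂ) * β₁)) m *
          ee ((m : ℂ) * (z : ℂ) / (h : ℂ))) +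
        mu * (dil s₂ (fun k => w k * ee ((k : ℂ) * β₂)) m * ee ((m : ℂ) * (z : ℂ) / (h : ℂ))) := by
    funext m
    simp only [comb, ee]
    ring
  rw [hfun]
  exact e1.add e2

/-- Packaging: a `TwoSeries` all of whose `comb`-coefficients lie in `V`, one of them with
nonzero reduction, gives the norm–Sturm datum (with scalar `c = 1`). -/
theorem TwoSeries.nsData {κ : Type*} [CommRing κ] (V : Subring ℂ) (red : V →+* κ)
    {g : ℍ → ℂ} {h : ℕ} {u : ℕ → ℂ} {s₁ : ℕ} {β₁ lam : ℂ} {w : ℕ → ℂ}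
    {s₂ : ℕ} {β₂ mu : ℂ} (H : TwoSeries g h u s₁ β₁ lam w s₂ β₂ mu) (hs₁ : 0 < s₁)
    (hs₂ : 0 < s₂) (hV : ∀ m, comb u s₁ β₁ lam w s₂ β₂ mu m ∈ V)
    (hred : ∃ m, red ⟨comb u s₁ β₁ lam w s₂ β₂ mu m, hV m⟩ ≠ 0) :
    NSData V red h g := by
  refine ⟨1, fun m => ⟨comb u s₁ β₁ lam w s₂ β₂ mu m, hV m⟩, one_ne_zero, hred, fun z => ?_⟩
  rw [one_mul]
  exact H.hasSum hs₁ hs₂ z

/-- Packaging for the identity coset. -/
theorem TwoSeries.nsDataOne {κ : Type*} [CommRing κ] (V : Subring ℂ) (red : V →+* κ)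
    {g : ℍ → ℂ} {h M : ℕ} {u : ℕ → ℂ} {s₁ : ℕ} {β₁ lam : ℂ} {w : ℕ → ℂ}
    {s₂ : ℕ} {β₂ mu : ℂ} (H : TwoSeries g h u s₁ β₁ lam w s₂ β₂ mu) (hs₁ : 0 < s₁)
    (hs₂ : 0 < s₂) (hV : ∀ m, comb u s₁ β₁ lam w s₂ β₂ mu m ∈ V)
    (hred : ∃ m, red ⟨comb u s₁ β₁ lam w s₂ β₂ mu m, hV m⟩ ≠ 0)
    (hlow : ∀ m < h * M, red ⟨comb u s₁ β₁ lam w s₂ β₂ mu m, hV m⟩ = 0) :
    NSDataOne V red h M g := by
  refine ⟨1, fun m => ⟨comb u s₁ β₁ lam w s₂ β₂ mu m, hV m⟩, one_ne_zero, hred, hlow,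
    fun z => ?_⟩
  rw [one_mul]
  exact H.hasSum hs₁ hs₂ z

end Fermat.Agent.S16.UBc
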