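import Mathlib
import Fermat.Agent.S16.UBc.Defs
import Fermat.Agent.S16.UBc.Series

/-!
# S16 / UB / U-c: the identity coset  (pure leaf: imports Mathlib + Defs + Series only).
FROZEN STATEMENT (do not change it; helper lemmas have the prefix `pureId_`).

`F = (1/4) E*₃(pz) - (1/4) f(z)`; in `y = e(z / (3p))`: coefficient of `y^0` is `(1 - a₀)/4`
(even), of `y^(3 p n)`, `1 ≤ n < p`, is `-a_n / 4` (even), of `y^(3 p²)` is `3 - a_p / 4` (odd).
All coefficients are integers.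
-/

set_option autoImplicit false

namespace Fermat.Agent.S16.UBc

open UpperHalfPlane

/-- The reduction of an element of `V` which is an integer. -/
theorem pureId_red_intCast {κ : Type*} [CommRing κ] (V : Subring ℂ) (red : V →+* κ) {x : ℂ}
    (hx : x ∈ V) (n : ℤ) (h : x = (n : ℂ)) : red ⟨x, hx⟩ = (n : κ) := by
  have h' : (⟨x, hx⟩ : V) = ((n : ℤ) : V) := Subtype.ext (by simpa using h)
  rw [h', map_intCast]

/-- The coefficient sequence of the identity coset, made explicit. -/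
theorem pureId_comb_eq (e3 : ℕ → ℂ) (a : ℕ → ℤ) (p m : ℕ) :
    comb e3 (3 * p ^ 2) 0 (1 / 4) (fun n => (a n : ℂ)) (3 * p) 0 (-(1 / 4)) m =
      1 / 4 * (if 3 * p ^ 2 ∣ m then e3 (m / (3 * p ^ 2)) else 0) +
        -(1 / 4) * (if 3 * p ∣ m then (a (m / (3 * p)) : ℂ) else 0) := by
  unfold comb dil ee
  simp only [mul_zero, Complex.exp_zero, mul_one]

/-- The contribution of `f` to a coefficient of positive index is an even integer. -/
theorem pureId_term2 {a : ℕ → ℤ} (ha : AHyp a) (p m : ℕ) (hp : 0 < p) (hm : 1 ≤ m) :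
    ∃ t : ℤ, -(1 / 4 : ℂ) * (if 3 * p ∣ m then (a (m / (3 * p)) : ℂ) else 0) =
      ((2 * t : ℤ) : ℂ) := by
  by_cases h : 3 * p ∣ m
  · rw [if_pos h]
    have hk : 1 ≤ m / (3 * p) := Nat.div_pos (Nat.le_of_dvd hm h) (by positivity)
    obtain ⟨t, ht⟩ := ha.pos _ hk
    refine ⟨-t, ?_⟩
    rw [ht]
    push_cast
    ring
  · rw [if_neg h]
    exact ⟨0, by simp⟩

/-- The contribution of `E*₃(pz)` to a coefficient of positive index is an integer. -/
theorem pureId_term1 {e3 : ℕ → ℂ} (he3 : E3Hyp e3) (p m : ℕ) (hp : 0 < p) (hm : 1 ≤ m) :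
    ∃ n : ℤ, (1 / 4 : ℂ) * (if 3 * p ^ 2 ∣ m then e3 (m / (3 * p ^ 2)) else 0) = (n : ℂ) := by
  by_cases h : 3 * p ^ 2 ∣ m
  · rw [if_pos h]
    have hk : 1 ≤ m / (3 * p ^ 2) := Nat.div_pos (Nat.le_of_dvd hm h) (by positivity)
    obtain ⟨n, hn⟩ := he3.pos _ hk
    refine ⟨3 * n, ?_⟩
    rw [hn]
    push_cast
    ring
  · rw [if_neg h]
    exact ⟨0, by simp⟩

/-- The contribution of `E*₃(pz)` vanishes for indices `1 ≤ m < 3 p²`. -/
theorem pureId_term1_low (e3 : ℕ → ℂ) (p m : ℕ) (hm : 1 ≤ m) (hlt : m < 3 * p ^ 2) :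
    (1 / 4 : ℂ) * (if 3 * p ^ 2 ∣ m then e3 (m / (3 * p ^ 2)) else 0) = 0 := by
  rw [if_neg (Nat.not_dvd_of_pos_of_lt hm hlt), mul_zero]

/-- The contribution of `E*₃(pz)` to the coefficient of index `3 p²` is `3`. -/
theorem pureId_term1_top {e3 : ℕ → ℂ} (he3 : E3Hyp e3) (p : ℕ) (hp : 0 < p) :
    (1 / 4 : ℂ) * (if 3 * p ^ 2 ∣ 3 * p ^ 2 then e3 (3 * p ^ 2 / (3 * p ^ 2)) else 0) = 3 := by
  rw [if_pos dvd_rfl, Nat.div_self (by positivity), he3.one]
  norm_num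

/-- The constant coefficient is an even integer. -/
theorem pureId_zero {a : ℕ → ℤ} (ha : AHyp a) {e3 : ℕ → ℂ} (he3 : E3Hyp e3) (p : ℕ) :
    ∃ t : ℤ, comb e3 (3 * p ^ 2) 0 (1 / 4) (fun n => (a n : ℂ)) (3 * p) 0 (-(1 / 4)) 0 =
      ((2 * t : ℤ) : ℂ) := by
  obtain ⟨t, ht⟩ := ha.zero
  refine ⟨-t, ?_⟩
  have h0 : (a 0 : ℂ) = 1 + 8 * (t : ℂ) := by
    have h : a 0 = 1 + 8 * t := by linarith
    rw [h]
    push_cast
    ring
  rw [pureId_comb_eq, if_pos (dvd_zero _), if_pos (dvd_zero _), Nat.zero_div, Nat.zero_div,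
    he3.zero, h0]
  push_cast
  ring

theorem nsDataOne_id {p : ℕ} (hp : p.Prime) (hp5 : 5 ≤ p) {a : ℕ → ℤ} (ha : AHyp a)
    {e3 : ℕ → ℂ} (he3 : E3Hyp e3) {κ : Type*} [CommRing κ] [IsDomain κ] (V : Subring ℂ)
    (red : V →+* κ) (hV : RedHyp p V red) (g : ℍ → ℂ)
    (H : TwoSeries g (3 * p) e3 (3 * p ^ 2) 0 (1 / 4) (fun n => (a n : ℂ)) (3 * p) 0 (-(1 / 4))) :
    NSDataOne V red (3 * p) p g := by
  have hp0 : 0 < p := hp.pos
  have h2 : (2 : κ) = 0 := by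
    have h := hV.red2
    rwa [map_ofNat] at h
  -- all coefficients are integers
  have hint : ∀ m, ∃ n : ℤ,
      comb e3 (3 * p ^ 2) 0 (1 / 4) (fun n => (a n : ℂ)) (3 * p) 0 (-(1 / 4)) m = (n : ℂ) := by
    intro m
    rcases Nat.eq_zero_or_pos m with rfl | hm
    · obtain ⟨t, ht⟩ := pureId_zero ha he3 p
      exact ⟨2 * t, ht⟩
    · obtain ⟨n, hn⟩ := pureId_term1 he3 p m hp0 hm
      obtain ⟨t, ht⟩ := pureId_term2 ha p m hp0 hm
      refine ⟨n + 2 * t, ?_⟩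
      rw [pureId_comb_eq, hn, ht]
      push_cast
      ring
  have hmem : ∀ m,
      comb e3 (3 * p ^ 2) 0 (1 / 4) (fun n => (a n : ℂ)) (3 * p) 0 (-(1 / 4)) m ∈ V := by
    intro m
    obtain ⟨n, hn⟩ := hint m
    rw [hn]
    exact intCast_mem V n
  refine TwoSeries.nsDataOne V red H (by positivity) (by positivity) hmem ⟨3 * p ^ 2, ?_⟩ ?_
  · -- the coefficient of index `3 p²` is odd
    have hpos : 0 < 3 * p ^ 2 := by positivity
    obtain ⟨t, ht⟩ := pureId_term2 ha p (3 * p ^ 2) hp0 hpos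
    have hc : comb e3 (3 * p ^ 2) 0 (1 / 4) (fun n => (a n : ℂ)) (3 * p) 0 (-(1 / 4))
        (3 * p ^ 2) = ((3 + 2 * t : ℤ) : ℂ) := by
      rw [pureId_comb_eq, pureId_term1_top he3 p hp0, ht]
      push_cast
      ring
    rw [pureId_red_intCast V red _ _ hc]
    have h3 : (3 : κ) = 1 := by
      have h : (3 : κ) = 2 + 1 := by norm_num
      rw [h, h2, zero_add]
    push_cast
    rw [h3, h2, zero_mul, add_zero]
    exact one_ne_zero
  · -- the coefficients of index `< 3 p²` are even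
    intro m hm
    have hm' : m < 3 * p ^ 2 := by
      rw [pow_two, ← mul_assoc]
      exact hm
    have hev : ∃ t : ℤ,
        comb e3 (3 * p ^ 2) 0 (1 / 4) (fun n => (a n : ℂ)) (3 * p) 0 (-(1 / 4)) m =
          ((2 * t : ℤ) : ℂ) := by
      rcases Nat.eq_zero_or_pos m with rfl | hm1
      · exact pureId_zero ha he3 p
      · obtain ⟨t, ht⟩ := pureId_term2 ha p m hp0 hm1
        refine ⟨t, ?_⟩
        rw [pureId_comb_eq, pureId_term1_low e3 p m hm1 hm', ht, zero_add]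
    obtain ⟨t, ht⟩ := hev
    rw [pureId_red_intCast V red _ _ ht]
    push_cast
    rw [h2, zero_mul]

end Fermat.Agent.S16.UBc
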