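import Mathlib
import Fermat.Agent.S16.UBc.Defs
import Fermat.Agent.S16.UBc.Series

/-!
# S16 / UB / U-c: translates of type (p ∤ c, 3 ∤ c)  (pure leaf: Mathlib + Defs + Series only).
FROZEN STATEMENT (helper lemmas carry the prefix `pureNN_`).

`F∣γ = -(p⁻²/12) ∑ e3_k e(k (z/(3p) + (j' + i p)/(3p))) + (p⁻¹/4) ∑ a_{pk} e(k (3 z/(3p) + j/p))`.
Constant coefficient `p⁻² (3 p a₀ - 1)/12` with `4 ∣ 3 p a₀ - 1` (`p ≡ 3 mod 4`, `a₀ ≡ 1 mod 8`),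
`3` a unit of `V`.  Coefficient of `y¹`: `-p⁻² ξ` (a unit of `V`; the second series only
contributes to exponents divisible by `3`).  For `m ≥ 1` all contributions are in `V`.
-/

set_option autoImplicit false

namespace Fermat.Agent.S16.UBc

open UpperHalfPlane

theorem nsData_no_no {p : ℕ} (hp : p.Prime) (hp5 : 5 ≤ p) (hp4 : p % 4 = 3) {a : ℕ → ℤ}
    (ha : AHyp a) {e3 : ℕ → ℂ} (he3 : E3Hyp e3) {κ : Type*} [CommRing κ] [IsDomain κ]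
    (V : Subring ℂ) (red : V →+* κ) (hV : RedHyp p V red) (g : ℍ → ℂ) (i j j' : ℤ)
    (H : TwoSeries g (3 * p) e3 1 (((j' : ℂ) + (i : ℂ) * (p : ℂ)) / (3 * (p : ℂ)))
      (-((p : ℂ)⁻¹ ^ 2 / 12)) (fun k => (a (p * k) : ℂ)) 3 ((j : ℂ) / (p : ℂ))
      ((p : ℂ)⁻¹ / 4)) :
    NSData V red (3 * p) g := by
  have hp0 : (p : ℂ) ≠ 0 := Nat.cast_ne_zero.2 hp.ne_zero
  have hppos : 0 < p := hp.pos
  have h3ppos : 0 < 3 * p := by positivity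
  have hpinvV : (p : ℂ)⁻¹ ∈ V := hV.invp
  -- the two roots of unity
  have hρ₁ : ee (((j' : ℂ) + (i : ℂ) * (p : ℂ)) / (3 * (p : ℂ))) ^ (3 * p) = 1 := by
    have h := ee_intCast_div_pow (j' + i * (p : ℤ)) (3 * p) h3ppos
    have hcast : (((j' + i * (p : ℤ) : ℤ) : ℂ)) / (((3 * p : ℕ) : ℂ))
        = ((j' : ℂ) + (i : ℂ) * (p : ℂ)) / (3 * (p : ℂ)) := by
      push_cast
      rfl
    rwa [hcast] at h
  have hρ₂ : ee ((j : ℂ) / (p : ℂ)) ^ p = 1 := ee_intCast_div_pow j p hppos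
  have hρ₁V : ee (((j' : ℂ) + (i : ℂ) * (p : ℂ)) / (3 * (p : ℂ))) ∈ V :=
    hV.root (3 * p) _ h3ppos hρ₁
  have hρ₂V : ee ((j : ℂ) / (p : ℂ)) ∈ V := hV.root p _ hppos hρ₂
  -- contributions of positive index
  have h₁ : ∀ k : ℕ, 1 ≤ k → -((p : ℂ)⁻¹ ^ 2 / 12) *
      (e3 k * ee ((k : ℂ) * (((j' : ℂ) + (i : ℂ) * (p : ℂ)) / (3 * (p : ℂ))))) ∈ V := by
    intro k hk
    obtain ⟨n, hn⟩ := he3.pos k hk
    have heq : -((p : ℂ)⁻¹ ^ 2 / 12) *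
        (e3 k * ee ((k : ℂ) * (((j' : ℂ) + (i : ℂ) * (p : ℂ)) / (3 * (p : ℂ)))))
        = -((p : ℂ)⁻¹ ^ 2 * ((n : ℂ) *
            ee (((j' : ℂ) + (i : ℂ) * (p : ℂ)) / (3 * (p : ℂ))) ^ k)) := by
      rw [hn, ee_nat_mul]
      ring
    rw [heq]
    exact V.neg_mem (V.mul_mem (V.pow_mem hpinvV 2)
      (V.mul_mem (natCast_mem V n) (V.pow_mem hρ₁V k)))
  have h₂ : ∀ k : ℕ, 1 ≤ k → (p : ℂ)⁻¹ / 4 *
      ((fun k => (a (p * k) : ℂ)) k * ee ((k : ℂ) * ((j : ℂ) / (p : ℂ)))) ∈ V := by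
    intro k hk
    have hpk : 1 ≤ p * k := Nat.one_le_iff_ne_zero.2 (Nat.mul_ne_zero hp.ne_zero (by omega))
    obtain ⟨c, hc⟩ := ha.pos (p * k) hpk
    have heq : (p : ℂ)⁻¹ / 4 *
        ((fun k => (a (p * k) : ℂ)) k * ee ((k : ℂ) * ((j : ℂ) / (p : ℂ))))
        = (p : ℂ)⁻¹ * (((2 * c : ℤ) : ℂ) * ee ((j : ℂ) / (p : ℂ)) ^ k) := by
      simp only [hc, ee_nat_mul]
      push_cast
      ring
    rw [heq]
    exact V.mul_mem hpinvV (V.mul_mem (intCast_mem V _) (V.pow_mem hρ₂V k))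
  -- the constant coefficient
  have h0 : comb e3 1 (((j' : ℂ) + (i : ℂ) * (p : ℂ)) / (3 * (p : ℂ)))
      (-((p : ℂ)⁻¹ ^ 2 / 12)) (fun k => (a (p * k) : ℂ)) 3 ((j : ℂ) / (p : ℂ))
      ((p : ℂ)⁻¹ / 4) 0 ∈ V := by
    rw [comb_zero, he3.zero]
    obtain ⟨t, ht⟩ := ha.zero
    have ha0 : a 0 = 1 + 8 * t := by linarith
    obtain ⟨r, hr⟩ : ∃ r : ℕ, p = 4 * r + 3 := ⟨p / 4, by omega⟩
    have hpr : (p : ℂ) = 4 * (r : ℂ) + 3 := by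
      rw [hr]
      push_cast
      ring
    have heq : -((p : ℂ)⁻¹ ^ 2 / 12) * 1 + (p : ℂ)⁻¹ / 4 * ((a (p * 0) : ℤ) : ℂ)
        = (p : ℂ)⁻¹ ^ 2 * ((3 : ℂ)⁻¹ *
            (((3 * (r : ℤ) + 2 + 6 * (p : ℤ) * t : ℤ)) : ℂ)) := by
      rw [Nat.mul_zero, ha0]
      push_cast
      field_simp
      rw [hpr]
      ring
    rw [heq]
    exact V.mul_mem (V.pow_mem hpinvV 2) (V.mul_mem hV.inv3 (intCast_mem V _))
  have hVall : ∀ m, comb e3 1 (((j' : ℂ) + (i : ℂ) * (p : ℂ)) / (3 * (p : ℂ)))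
      (-((p : ℂ)⁻¹ ^ 2 / 12)) (fun k => (a (p * k) : ℂ)) 3 ((j : ℂ) / (p : ℂ))
      ((p : ℂ)⁻¹ / 4) m ∈ V := by
    intro m
    rcases Nat.eq_zero_or_pos m with rfl | hm
    · exact h0
    · exact comb_mem_of_pos V _ _ _ _ _ _ _ _ h₁ h₂ m hm
  refine TwoSeries.nsData V red H one_pos (by norm_num) hVall ⟨1, ?_⟩
  -- the coefficient of `y ^ 1` is a unit of `V`
  have h1 : comb e3 1 (((j' : ℂ) + (i : ℂ) * (p : ℂ)) / (3 * (p : ℂ)))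
      (-((p : ℂ)⁻¹ ^ 2 / 12)) (fun k => (a (p * k) : ℂ)) 3 ((j : ℂ) / (p : ℂ))
      ((p : ℂ)⁻¹ / 4) 1
      = -((p : ℂ)⁻¹ ^ 2 * ee (((j' : ℂ) + (i : ℂ) * (p : ℂ)) / (3 * (p : ℂ)))) := by
    unfold comb
    rw [dil_one, dil_of_not_dvd 3 _ 1 (by norm_num), he3.one, Nat.cast_one, one_mul]
    ring
  have hyV : -((p : ℂ) ^ 2 *
      ee (((j' : ℂ) + (i : ℂ) * (p : ℂ)) / (3 * (p : ℂ))) ^ (3 * p - 1)) ∈ V :=
    V.neg_mem (V.mul_mem (V.pow_mem (natCast_mem V p) 2) (V.pow_mem hρ₁V _))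
  have hmul : (⟨_, hVall 1⟩ : V) * ⟨_, hyV⟩ = 1 := by
    apply Subtype.ext
    rw [Subring.coe_mul, Subring.coe_one]
    show comb e3 1 (((j' : ℂ) + (i : ℂ) * (p : ℂ)) / (3 * (p : ℂ)))
      (-((p : ℂ)⁻¹ ^ 2 / 12)) (fun k => (a (p * k) : ℂ)) 3 ((j : ℂ) / (p : ℂ))
      ((p : ℂ)⁻¹ / 4) 1 * -((p : ℂ) ^ 2 *
        ee (((j' : ℂ) + (i : ℂ) * (p : ℂ)) / (3 * (p : ℂ))) ^ (3 * p - 1)) = 1
    rw [h1]
    have hpow : ee (((j' : ℂ) + (i : ℂ) * (p : ℂ)) / (3 * (p : ℂ))) *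
        ee (((j' : ℂ) + (i : ℂ) * (p : ℂ)) / (3 * (p : ℂ))) ^ (3 * p - 1) = 1 := by
      rw [← pow_succ', Nat.sub_add_cancel h3ppos, hρ₁]
    calc -((p : ℂ)⁻¹ ^ 2 * ee (((j' : ℂ) + (i : ℂ) * (p : ℂ)) / (3 * (p : ℂ)))) *
          -((p : ℂ) ^ 2 * ee (((j' : ℂ) + (i : ℂ) * (p : ℂ)) / (3 * (p : ℂ))) ^ (3 * p - 1))
        = ((p : ℂ)⁻¹ * (p : ℂ)) ^ 2 *
            (ee (((j' : ℂ) + (i : ℂ) * (p : ℂ)) / (3 * (p : ℂ))) *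
              ee (((j' : ℂ) + (i : ℂ) * (p : ℂ)) / (3 * (p : ℂ))) ^ (3 * p - 1)) := by ring
      _ = 1 := by rw [hpow, inv_mul_cancel₀ hp0, one_pow, one_mul]
  intro hzero
  have h := congrArg red hmul
  rw [map_mul, hzero, zero_mul, map_one] at h
  exact zero_ne_one h

end Fermat.Agent.S16.UBc
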