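import Mathlib
import Fermat.Agent.S16.UBc.Defs
import Fermat.Agent.S16.UBc.Series

/-!
# S16 / UB / U-c: translates of type (p ∤ c, 3 ∣ c)  (pure leaf: Mathlib + Defs + Series only).
FROZEN STATEMENT (helper lemmas have the prefix `pureNY_`).

`F∣γ = (p⁻²/4) ∑ e3_k e(k (3 z/(3p) + j'/p)) + (p⁻¹/4) ∑ a_{pk} e(k (3 z/(3p) + j/p))`.
Constant coefficient `p⁻² (1 + p a₀)/4` with `4 ∣ 1 + p a₀` (`p ≡ 3 mod 4`, `a₀ ≡ 1 mod 8`).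
Coefficient of `y³`: `3 p⁻² ρ' + p⁻¹ (a_p/4) ρ`, reduction `= red(3 p⁻² ρ') ≠ 0` (unit of `V`;
`a_p / 4` is even).  For `m ≥ 1` all contributions are in `V`.
-/

set_option autoImplicit false

namespace Fermat.Agent.S16.UBc

open UpperHalfPlane

/-- A ring homomorphism into a nontrivial ring does not kill an invertible element. -/
theorem pureNY_red_ne_zero {κ : Type*} [CommRing κ] [Nontrivial κ] {V : Subring ℂ}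
    (red : V →+* κ) (x y : V) (hxy : x * y = 1) : red x ≠ 0 := by
  intro h
  have h1 := congrArg red hxy
  rw [map_mul, h, zero_mul, map_one] at h1
  exact zero_ne_one h1

theorem nsData_no_yes {p : ℕ} (hp : p.Prime) (hp5 : 5 ≤ p) (hp4 : p % 4 = 3) {a : ℕ → ℤ}
    (ha : AHyp a) {e3 : ℕ → ℂ} (he3 : E3Hyp e3) {κ : Type*} [CommRing κ] [IsDomain κ]
    (V : Subring ℂ) (red : V →+* κ) (hV : RedHyp p V red) (g : ℍ → ℂ) (j j' : ℤ)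
    (H : TwoSeries g (3 * p) e3 3 ((j' : ℂ) / (p : ℂ)) ((p : ℂ)⁻¹ ^ 2 / 4)
      (fun k => (a (p * k) : ℂ)) 3 ((j : ℂ) / (p : ℂ)) ((p : ℂ)⁻¹ / 4)) :
    NSData V red (3 * p) g := by
  have _hp5 : 5 ≤ p := hp5
  have hp0 : 0 < p := hp.pos
  have hpC : (p : ℂ) ≠ 0 := Nat.cast_ne_zero.2 hp.ne_zero
  have hx : (p : ℂ) * (p : ℂ)⁻¹ = 1 := mul_inv_cancel₀ hpC
  have hinvp : (p : ℂ)⁻¹ ∈ V := hV.invp
  -- the roots of unity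
  have hρ'1 : ee ((j' : ℂ) / (p : ℂ)) ∈ V := hV.root p _ hp0 (ee_intCast_div_pow j' p hp0)
  have hρ1 : ee ((j : ℂ) / (p : ℂ)) ∈ V := hV.root p _ hp0 (ee_intCast_div_pow j p hp0)
  have hρ' : ∀ k : ℕ, ee ((k : ℂ) * ((j' : ℂ) / (p : ℂ))) ∈ V := fun k => by
    rw [ee_nat_mul]
    exact V.pow_mem hρ'1 k
  have hρ : ∀ k : ℕ, ee ((k : ℂ) * ((j : ℂ) / (p : ℂ))) ∈ V := fun k => by
    rw [ee_nat_mul]
    exact V.pow_mem hρ1 k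
  -- arithmetic input
  obtain ⟨t, ht⟩ := ha.zero
  obtain ⟨r, hr⟩ : ∃ r : ℕ, p = 4 * r + 3 := ⟨p / 4, by omega⟩
  have hrC : (p : ℂ) = 4 * (r : ℂ) + 3 := by exact_mod_cast hr
  -- contributions for `k ≥ 1`
  have h₁ : ∀ k : ℕ, 1 ≤ k →
      (p : ℂ)⁻¹ ^ 2 / 4 * (e3 k * ee ((k : ℂ) * ((j' : ℂ) / (p : ℂ)))) ∈ V := by
    intro k hk
    obtain ⟨n, hn⟩ := he3.pos k hk
    have h : (p : ℂ)⁻¹ ^ 2 / 4 * (e3 k * ee ((k : ℂ) * ((j' : ℂ) / (p : ℂ)))) =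
        (p : ℂ)⁻¹ ^ 2 * ((3 * n : ℕ) : ℂ) * ee ((k : ℂ) * ((j' : ℂ) / (p : ℂ))) := by
      rw [hn]
      push_cast
      ring
    rw [h]
    exact V.mul_mem (V.mul_mem (V.pow_mem hinvp 2) (natCast_mem V _)) (hρ' k)
  have h₂ : ∀ k : ℕ, 1 ≤ k →
      (p : ℂ)⁻¹ / 4 * ((a (p * k) : ℂ) * ee ((k : ℂ) * ((j : ℂ) / (p : ℂ)))) ∈ V := by
    intro k hk
    obtain ⟨s, hs⟩ := ha.pos (p * k) (Nat.mul_pos hp0 hk)
    have h : (p : ℂ)⁻¹ / 4 * ((a (p * k) : ℂ) * ee ((k : ℂ) * ((j : ℂ) / (p : ℂ)))) =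
        (p : ℂ)⁻¹ * ((2 * s : ℤ) : ℂ) * ee ((k : ℂ) * ((j : ℂ) / (p : ℂ))) := by
      rw [hs]
      push_cast
      ring
    rw [h]
    exact V.mul_mem (V.mul_mem hinvp (intCast_mem V _)) (hρ k)
  -- all coefficients lie in `V`
  have hmem : ∀ m, comb e3 3 ((j' : ℂ) / (p : ℂ)) ((p : ℂ)⁻¹ ^ 2 / 4)
      (fun k => (a (p * k) : ℂ)) 3 ((j : ℂ) / (p : ℂ)) ((p : ℂ)⁻¹ / 4) m ∈ V := by
    intro m
    rcases Nat.eq_zero_or_pos m with rfl | hm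
    · have ha0 : a (p * 0) = 1 + 8 * t := by
        rw [Nat.mul_zero]
        linarith
      have h : (p : ℂ)⁻¹ ^ 2 / 4 * e3 0 + (p : ℂ)⁻¹ / 4 * ((a (p * 0) : ℤ) : ℂ) =
          (p : ℂ)⁻¹ ^ 2 * (((r : ℤ) + 1 + 2 * (p : ℤ) * t : ℤ) : ℂ) := by
        rw [ha0, he3.zero]
        push_cast
        linear_combination (-2 * (p : ℂ)⁻¹ * (t : ℂ) - (p : ℂ)⁻¹ / 4) * hx +
          ((p : ℂ)⁻¹ ^ 2 / 4) * hrC
      rw [comb_zero, h]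
      exact V.mul_mem (V.pow_mem hinvp 2) (intCast_mem V _)
    · exact comb_mem_of_pos V _ _ _ _ _ _ _ _ h₁ h₂ m hm
  refine TwoSeries.nsData V red H (by norm_num) (by norm_num) hmem ⟨3, ?_⟩
  -- the coefficient of `y ^ 3`
  obtain ⟨s, hs⟩ := ha.pos p hp0
  have hd : ∀ f : ℕ → ℂ, dil 3 f 3 = f 1 := fun f => dil_mul 3 (by norm_num) f 1
  have hc3 : comb e3 3 ((j' : ℂ) / (p : ℂ)) ((p : ℂ)⁻¹ ^ 2 / 4)
      (fun k => (a (p * k) : ℂ)) 3 ((j : ℂ) / (p : ℂ)) ((p : ℂ)⁻¹ / 4) 3 =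
      3 * (p : ℂ)⁻¹ ^ 2 * ee ((j' : ℂ) / (p : ℂ)) +
        2 * ((p : ℂ)⁻¹ * (s : ℂ) * ee ((j : ℂ) / (p : ℂ))) := by
    unfold comb
    rw [hd, hd]
    simp only [Nat.cast_one, one_mul, Nat.mul_one]
    rw [he3.one, hs]
    push_cast
    ring
  -- the unit part and the even part
  have hU : 3 * (p : ℂ)⁻¹ ^ 2 * ee ((j' : ℂ) / (p : ℂ)) ∈ V :=
    V.mul_mem (V.mul_mem (natCast_mem V 3) (V.pow_mem hinvp 2)) hρ'1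
  have hW : (p : ℂ)⁻¹ * (s : ℂ) * ee ((j : ℂ) / (p : ℂ)) ∈ V :=
    V.mul_mem (V.mul_mem hinvp (intCast_mem V _)) hρ1
  have hρ'inv : (ee ((j' : ℂ) / (p : ℂ)))⁻¹ ∈ V := by
    refine hV.root p _ hp0 ?_
    rw [inv_pow, ee_intCast_div_pow j' p hp0, inv_one]
  have hU' : (3 : ℂ)⁻¹ * (p : ℂ) ^ 2 * (ee ((j' : ℂ) / (p : ℂ)))⁻¹ ∈ V :=
    V.mul_mem (V.mul_mem hV.inv3 (V.pow_mem (natCast_mem V p) 2)) hρ'inv
  have hUU' : (⟨_, hU⟩ : V) * ⟨_, hU'⟩ = 1 := by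
    apply Subtype.ext
    have hne : ee ((j' : ℂ) / (p : ℂ)) ≠ 0 := ee_ne_zero _
    change 3 * (p : ℂ)⁻¹ ^ 2 * ee ((j' : ℂ) / (p : ℂ)) *
      ((3 : ℂ)⁻¹ * (p : ℂ) ^ 2 * (ee ((j' : ℂ) / (p : ℂ)))⁻¹) = 1
    field_simp
  have hsplit : (⟨_, hmem 3⟩ : V) = ⟨_, hU⟩ + (⟨_, hW⟩ + ⟨_, hW⟩) := by
    apply Subtype.ext
    change comb e3 3 ((j' : ℂ) / (p : ℂ)) ((p : ℂ)⁻¹ ^ 2 / 4)
      (fun k => (a (p * k) : ℂ)) 3 ((j : ℂ) / (p : ℂ)) ((p : ℂ)⁻¹ / 4) 3 =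
      3 * (p : ℂ)⁻¹ ^ 2 * ee ((j' : ℂ) / (p : ℂ)) +
        ((p : ℂ)⁻¹ * (s : ℂ) * ee ((j : ℂ) / (p : ℂ)) +
          (p : ℂ)⁻¹ * (s : ℂ) * ee ((j : ℂ) / (p : ℂ)))
    rw [hc3]
    ring
  have h2 : (2 : κ) = 0 := by
    rw [← map_ofNat red 2]
    exact hV.red2
  rw [hsplit, map_add, map_add, ← two_mul, h2, zero_mul, add_zero]
  exact pureNY_red_ne_zero red _ _ hUU'

end Fermat.Agent.S16.UBc
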