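import Mathlib
import Fermat.Agent.S16.UBc.Defs
import Fermat.Agent.S16.UBc.Series

/-!
# S16 / UB / U-c: translates of type (p ∣ c, 3 ∤ c)  (pure leaf: Mathlib + Defs + Series only).
FROZEN STATEMENT (replace the `sorry` only; add helper lemmas with prefix `pureYN_`).

`F∣γ = -(1/12) ∑ e3_k e(k (p² z/(3p) + i/3)) - (1/4) ∑ a_n e(n · 3p z/(3p))`.
Constant coefficient `-(1/12) - a₀/4 = -(1 + 3 a₀)/12 = -(1 + 6t)/3` (`a₀ = 1 + 8t`): in `V`,
reduction `≠ 0` (`red 2 = 0`, `3` a unit of `V`).  For `m ≥ 1`: `-(1/12) · 12 n · ρ^k ∈ V` and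
`-(1/4) a_n ∈ ℤ`.
-/

set_option autoImplicit false

namespace Fermat.Agent.S16.UBc

open UpperHalfPlane

/-- `e(i / 3)` is a cube root of unity, hence lies in `V`. -/
theorem pureYN_root_mem {p : ℕ} {κ : Type*} [CommRing κ] (V : Subring ℂ) (red : V →+* κ)
    (hV : RedHyp p V red) (i : ℤ) : ee ((i : ℂ) / 3) ∈ V := by
  refine hV.root 3 _ (by norm_num) ?_
  have h := ee_intCast_div_pow i 3 (by norm_num)
  rw [Nat.cast_ofNat] at h
  exact h

/-- The contributions of the first series to the coefficients of positive index lie in `V`. -/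
theorem pureYN_mem_one {p : ℕ} {e3 : ℕ → ℂ} (he3 : E3Hyp e3) {κ : Type*} [CommRing κ]
    (V : Subring ℂ) (red : V →+* κ) (hV : RedHyp p V red) (i : ℤ) (k : ℕ) (hk : 1 ≤ k) :
    (-(1 / 12) : ℂ) * (e3 k * ee ((k : ℂ) * ((i : ℂ) / 3))) ∈ V := by
  obtain ⟨n, hn⟩ := he3.pos k hk
  rw [hn, ee_nat_mul]
  have h : (-(1 / 12) : ℂ) * (12 * (n : ℂ) * ee ((i : ℂ) / 3) ^ k) =
      -((n : ℂ) * ee ((i : ℂ) / 3) ^ k) := by ring
  rw [h]
  exact V.neg_mem (V.mul_mem (natCast_mem V n) (V.pow_mem (pureYN_root_mem V red hV i) k))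

/-- The contributions of the second series to the coefficients of positive index lie in `V`. -/
theorem pureYN_mem_two {a : ℕ → ℤ} (ha : AHyp a) (V : Subring ℂ) (k : ℕ) (hk : 1 ≤ k) :
    (-(1 / 4) : ℂ) * ((fun n => (a n : ℂ)) k * ee ((k : ℂ) * 0)) ∈ V := by
  obtain ⟨c, hc⟩ := ha.pos k hk
  have h : (-(1 / 4) : ℂ) * ((fun n => (a n : ℂ)) k * ee ((k : ℂ) * 0)) = ((-2 * c : ℤ) : ℂ) := by
    simp only [mul_zero, ee_zero, mul_one, hc]
    push_cast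
    ring
  rw [h]
  exact intCast_mem V _

/-- The constant coefficient: `-(1/12) - a₀/4 = -(1 + 6t)/3` when `a₀ = 1 + 8t`. -/
theorem pureYN_comb_zero {p : ℕ} {a : ℕ → ℤ} {e3 : ℕ → ℂ} (he3 : E3Hyp e3) (i t : ℤ)
    (ht : a 0 - 1 = 8 * t) :
    comb e3 (p ^ 2) ((i : ℂ) / 3) (-(1 / 12)) (fun n => (a n : ℂ)) (3 * p) 0 (-(1 / 4)) 0 =
      ((-(1 + 6 * t) : ℤ) : ℂ) * (3 : ℂ)⁻¹ := by
  rw [comb_zero, he3.zero]
  have ha0 : a 0 = 1 + 8 * t := by linarith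
  simp only [ha0]
  push_cast
  ring

theorem nsData_yes_no {p : ℕ} (hp : p.Prime) (hp5 : 5 ≤ p) {a : ℕ → ℤ} (ha : AHyp a)
    {e3 : ℕ → ℂ} (he3 : E3Hyp e3) {κ : Type*} [CommRing κ] [IsDomain κ] (V : Subring ℂ)
    (red : V →+* κ) (hV : RedHyp p V red) (g : ℍ → ℂ) (i : ℤ)
    (H : TwoSeries g (3 * p) e3 (p ^ 2) ((i : ℂ) / 3) (-(1 / 12)) (fun n => (a n : ℂ)) (3 * p) 0
      (-(1 / 4))) :
    NSData V red (3 * p) g := by
  have hp0 : 0 < p := hp.pos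
  have hs₁ : 0 < p ^ 2 := pow_pos hp0 2
  have hs₂ : 0 < 3 * p := by omega
  obtain ⟨t, ht⟩ := ha.zero
  have h0 := pureYN_comb_zero (p := p) he3 i t ht
  -- all coefficients lie in `V`
  have hVm : ∀ m, comb e3 (p ^ 2) ((i : ℂ) / 3) (-(1 / 12)) (fun n => (a n : ℂ)) (3 * p) 0
      (-(1 / 4)) m ∈ V := by
    intro m
    rcases Nat.eq_zero_or_pos m with rfl | hm
    · rw [h0]
      exact V.mul_mem (intCast_mem V _) hV.inv3
    · exact comb_mem_of_pos V _ _ _ _ _ _ _ _ (pureYN_mem_one he3 V red hV i)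
        (pureYN_mem_two ha V) m hm
  -- the constant coefficient has nonzero reduction
  refine TwoSeries.nsData V red H hs₁ hs₂ hVm ⟨0, ?_⟩
  have h2κ : (2 : κ) = 0 := by
    have h := hV.red2
    rwa [map_ofNat] at h
  have hunit : red ⟨(3 : ℂ)⁻¹, hV.inv3⟩ * red ((3 : ℕ) : V) = 1 := by
    rw [← map_mul]
    have h : (⟨(3 : ℂ)⁻¹, hV.inv3⟩ : V) * ((3 : ℕ) : V) = 1 := by
      apply Subtype.ext
      rw [Subring.coe_mul, Subring.coe_natCast, Subring.coe_one]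
      norm_num
    rw [h, map_one]
  have hne : red ⟨(3 : ℂ)⁻¹, hV.inv3⟩ ≠ 0 := by
    intro h
    rw [h, zero_mul] at hunit
    exact zero_ne_one hunit
  have hx0 : (⟨comb e3 (p ^ 2) ((i : ℂ) / 3) (-(1 / 12)) (fun n => (a n : ℂ)) (3 * p) 0
      (-(1 / 4)) 0, hVm 0⟩ : V) = ((-(1 + 6 * t) : ℤ) : V) * ⟨(3 : ℂ)⁻¹, hV.inv3⟩ := by
    apply Subtype.ext
    rw [Subring.coe_mul, Subring.coe_intCast]
    exact h0
  have hcast : ((-(1 + 6 * t) : ℤ) : κ) = -1 := by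
    push_cast
    have h6 : (6 : κ) = 2 * 3 := by norm_num
    rw [h6, h2κ]
    ring
  rw [hx0, map_mul, map_intCast, hcast, neg_one_mul]
  exact neg_ne_zero.mpr hne

end Fermat.Agent.S16.UBc
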