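import Mathlib
import Fermat.Prelude.Def_FLTPrelim_Modularity
import Fermat.Agent.S16.UB.Defs
import Fermat.Agent.S16.UBc.Defs
import Fermat.Agent.S16.UBc.PureId
import Fermat.Agent.S16.UBc.PureYN
import Fermat.Agent.S16.UBc.PureNY
import Fermat.Agent.S16.UBc.PureNN
import Fermat.Agent.S16.UBc.AdA
import Fermat.Agent.S16.UBc.AdB
import Fermat.Agent.S16.UBc.Inst
import Fermat.Agent.S16.COS.Iface
import Fermat.Agent.S16.B1.Iface
import Fermat.Agent.S16.E2.Iface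
import Fermat.Agent.S16.VP.Iface
import Fermat.Agent.S16.NS.Final
import Fermat.Agent.S16.NS.Index
import Fermat.Agent.S16.RED.Basic
import Fermat.Agent.S16.MF.Exp

/-!
# S16 / UB / U-c: assembly (owner: helper11).

For a prime `p ≥ 5`, `p ≡ 3 mod 4`, there is no `f ≡ 1 mod 8` in `M₂(Γ₀(p))`:
norm–Sturm principle on `Γ₀(3p)` (`ℓ = 2`, `h = 3p`, `M = p`) for `F = (E*₃(pz) - f) / 4`.
-/

set_option autoImplicit false

open UpperHalfPlane ModularForm CongruenceSubgroup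
open scoped MatrixGroups ModularForm Real

namespace Fermat.Agent.S16.UBc

open Fermat.Agent.S16
open Fermat.Agent.S23 (Gam psi)

/-- An expansion in `q = e(z)` as a `HasSum` with `ee`. -/
theorem main_hasSum_of_hasExp {G : ℍ → ℂ} {B : PowerSeries ℂ} (hB : HasExp 1 G B) (z : ℍ) :
    HasSum (fun k : ℕ => PowerSeries.coeff k B * ee ((k : ℂ) * (z : ℂ))) (G z) := by
  have h := (hasExp_iff_exp 1 G B).mp hB z
  simpa [ee] using h

/-- Bridge between the shape of `B1.hasSum_of_not_dvd` and the shape used in `AdA`/`AdB`. -/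
theorem main_bridge {p : ℕ} (c : ℕ → ℂ) (j : ℕ) (S : ℂ) (z : ℂ)
    (h : HasSum (fun k : ℕ => c k *
      Complex.exp (2 * (π : ℂ) * Complex.I * ((k : ℂ) * (z + (j : ℂ)) / (p : ℂ)))) S) :
    HasSum (fun k : ℕ => c k * ee ((k : ℂ) * ((z + ((j : ℤ) : ℂ)) / (p : ℂ)))) S := by
  have h1 : ∀ k : ℕ, ee ((k : ℂ) * ((z + ((j : ℤ) : ℂ)) / (p : ℂ))) =
      Complex.exp (2 * (π : ℂ) * Complex.I * ((k : ℂ) * (z + (j : ℂ)) / (p : ℂ))) := by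
    intro k
    unfold ee
    rw [Int.cast_natCast, mul_div_assoc]
  simpa only [h1] using h

/-- **U-c**: for a prime `p ≥ 5`, `p ≡ 3 mod 4`, there is no `f ≡ 1 mod 8` in `M₂(Γ₀(p))`. -/
theorem Uc' {p : ℕ} (hp : p.Prime) (hp5 : 5 ≤ p) (hp4 : p % 4 = 3)
    (f : ModularForm (Gamma0 p) 2) (hf : Fermat.Agent.S16.UB.CongOne f 8) : False := by
  obtain ⟨a, ha, ha0, hak⟩ := hf
  have haH : AHyp a := ⟨by exact_mod_cast ha0, fun k hk => by exact_mod_cast hak k hk⟩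
  have : NeZero p := ⟨hp.ne_zero⟩
  have : NeZero (3 : ℕ) := ⟨by norm_num⟩
  have : NeZero (3 * p) := ⟨Nat.mul_ne_zero (by norm_num) hp.ne_zero⟩
  have : Fact (Nat.Prime 2) := ⟨Nat.prime_two⟩
  have hp3 : p ≠ 3 := by omega
  have hp2 : p ≠ 2 := by omega
  let f₀ : ModularForm (Gam p) 2 := f
  let E : ModularForm (Gam 3) 2 := Estar 3
  let e3 : ℕ → ℂ := fun k => PowerSeries.coeff k (qExpansion 1 E)
  obtain ⟨he3H, he3mul⟩ := e3Hyp_of e3 (Estar_coeff_zero Nat.prime_three)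
    (fun k hk => Estar_coeff Nat.prime_three k hk)
  let R : ModularForm (Gam (3 * p)) 2 := raise 3 p E
  let F : ModularForm (Gam (3 * p)) 2 := (1 / 4 : ℂ) • (R - incl 3 f₀)
  have hFcoe : (F : ℍ → ℂ) = (1 / 4 : ℂ) • ((R : ℍ → ℂ) - (f₀ : ℍ → ℂ)) := by
    funext z
    show ((1 / 4 : ℂ) • (R - incl 3 f₀)) z = _
    have h1 : ((1 / 4 : ℂ) • (R - incl 3 f₀)) z = (1 / 4 : ℂ) • (R z - incl 3 f₀ z) := rfl
    rw [h1, incl_apply, Pi.smul_apply, Pi.sub_apply]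
  have hV : RedHyp p (Vl 2) (red 2) := redHyp_two hp hp2
  have hE : ∀ w : ℍ, HasSum (fun k : ℕ => e3 k * ee ((k : ℂ) * (w : ℂ))) (E w) :=
    main_hasSum_of_hasExp (hasExp_gam E)
  have hf' : ∀ z : ℍ, HasSum (fun n : ℕ => (a n : ℂ) * ee ((n : ℂ) * (z : ℂ))) (f₀ z) := by
    intro z
    have h := main_hasSum_of_hasExp (hasExp_gam f₀) z
    have h2 : ∀ n : ℕ, PowerSeries.coeff n (qExpansion 1 f₀) = (a n : ℂ) := fun n => ha n
    simpa only [h2] using h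
  have hR : ∀ z w : ℍ, (w : ℂ) = (p : ℂ) * (z : ℂ) → R z = E w :=
    fun z w h => raise_apply hp.ne_zero E z w h
  have hpsi : psi (3 * p) = 4 * (p + 1) := psi_three_mul_prime hp hp3
  have hcop : IsCoprime (3 : ℤ) (p : ℤ) := by
    have h1 : Nat.Coprime 3 p := (Nat.coprime_primes Nat.prime_three hp).mpr (Ne.symm hp3)
    exact_mod_cast Nat.isCoprime_iff_coprime.mpr h1
  have hpow : (p : ℂ) ^ (-(2 : ℤ)) = (p : ℂ)⁻¹ ^ 2 := by
    rw [zpow_neg, ← inv_zpow]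
    norm_cast
  -- the expansion of `E ∣ γ'` when `3 ∤ c(γ')`
  have hE3 : ∀ γ' : SL(2, ℤ), ¬ (3 : ℤ) ∣ γ' 1 0 → ∃ i : ℤ, ∀ w : ℍ, HasSum
      (fun k : ℕ => e3 (3 * k) * ee ((k : ℂ) * (((w : ℂ) + (i : ℂ)) / 3)))
      (-(3 : ℂ) * ((E : ℍ → ℂ) ∣[(2 : ℤ)] γ') w) := by
    intro γ' h3
    obtain ⟨i, -, hi⟩ := B1.hasSum_of_not_dvd Nat.prime_three E γ' (by exact_mod_cast h3)
    refine ⟨(i : ℤ), fun w => ?_⟩
    have h1 := main_bridge (p := 3) (fun k => e3 (3 * k)) i _ (w : ℂ) (hi w)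
    simpa using h1
  -- the expansion of `f ∣ γ` when `p ∤ c(γ)`
  have hfp : ∀ γ : SL(2, ℤ), ¬ (p : ℤ) ∣ γ 1 0 → ∃ j : ℤ, ∀ z : ℍ, HasSum
      (fun k : ℕ => (a (p * k) : ℂ) * ee ((k : ℂ) * (((z : ℂ) + (j : ℂ)) / (p : ℂ))))
      (-(p : ℂ) * ((f₀ : ℍ → ℂ) ∣[(2 : ℤ)] γ) z) := by
    intro γ hpc
    obtain ⟨j, -, hj⟩ := B1.hasSum_of_not_dvd hp f₀ γ hpc
    refine ⟨(j : ℤ), fun z => ?_⟩
    have h2 : ∀ k : ℕ, ModularFormClass.qCoeff (f₀ : ℍ → ℂ) (p * k) = (a (p * k) : ℂ) :=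
      fun k => ha (p * k)
    have h3 := hj z
    simp only [h2] at h3
    exact main_bridge (p := p) (fun k => (a (p * k) : ℂ)) j _ (z : ℂ) h3
  refine norm_sturm_seq F (Vl 2) (red 2) (3 * p) (by positivity) p ?_ ?_ ?_ ?_
  · rw [hpsi]
    exact ⟨2 * ((p : ℤ) + 1), by push_cast; ring⟩
  · rw [hpsi]
    push_cast
    have h5 : (5 : ℤ) ≤ p := by exact_mod_cast hp5
    linarith
  · have H := twoSeries_id hp.pos (E : ℍ → ℂ) (R : ℍ → ℂ) (f₀ : ℍ → ℂ) e3 (fun n => (a n : ℂ))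
      hE hf' hR
    rw [← hFcoe] at H
    exact nsDataOne_id hp hp5 haH he3H (Vl 2) (red 2) hV _ H
  · intro γ hγ
    have hc : ¬ ((3 : ℤ) * (p : ℤ)) ∣ γ 1 0 := by
      intro h
      apply hγ
      rw [CongruenceSubgroup.Gamma0_mem]
      refine (ZMod.intCast_zmod_eq_zero_iff_dvd _ _).mpr ?_
      push_cast
      exact h
    show NSData (Vl 2) (red 2) (3 * p) ((F : ℍ → ℂ) ∣[(2 : ℤ)] γ)
    rw [hFcoe]
    by_cases hpc : (p : ℤ) ∣ γ 1 0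
    · -- type (p ∣ c, 3 ∤ c)
      have h3c : ¬ (3 : ℤ) ∣ γ 1 0 := fun h3 => hc (hcop.mul_dvd h3 hpc)
      obtain ⟨γ', hγ'c, hRγ⟩ := raise_slash_of_dvd hp.ne_zero E γ hpc
      have h3c' : ¬ (3 : ℤ) ∣ γ' 1 0 := by
        intro h3
        apply h3c
        rw [← hγ'c]
        exact Dvd.dvd.mul_right h3 _
      obtain ⟨i, hEγ'⟩ := hE3 γ' h3c'
      have hfγ : (f₀ : ℍ → ℂ) ∣[(2 : ℤ)] γ = f₀ := COS.slash_eq_of_dvd f₀ γ hpc
      have H := twoSeries_yes_no hp.pos (E : ℍ → ℂ) (R : ℍ → ℂ) (f₀ : ℍ → ℂ) e3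
        (fun n => (a n : ℂ)) γ γ' i he3mul hEγ' hf' hfγ hRγ
      exact nsData_yes_no hp hp5 haH he3H (Vl 2) (red 2) hV _ i H
    · obtain ⟨j, hfγ⟩ := hfp γ hpc
      obtain ⟨γ', j', -, hγ'c, hRγ0⟩ := raise_slash_of_not_dvd hp E γ hpc
      have hRγ : ∀ z w : ℍ, (w : ℂ) = ((z : ℂ) + ((j' : ℤ) : ℂ)) / (p : ℂ) →
          ((R : ℍ → ℂ) ∣[(2 : ℤ)] γ) z = (p : ℂ)⁻¹ ^ 2 * ((E : ℍ → ℂ) ∣[(2 : ℤ)] γ') w := by
        intro z w hw
        rw [hRγ0 z w (by rw [hw, Int.cast_natCast]), hpow]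
      by_cases h3c : (3 : ℤ) ∣ γ 1 0
      · -- type (p ∤ c, 3 ∣ c)
        have hEγ' : (E : ℍ → ℂ) ∣[(2 : ℤ)] γ' = E :=
          COS.slash_eq_of_dvd E γ' (by rw [hγ'c]; exact_mod_cast h3c)
        have H := twoSeries_no_yes hp.pos (E : ℍ → ℂ) (R : ℍ → ℂ) (f₀ : ℍ → ℂ) e3
          (fun k => (a (p * k) : ℂ)) γ γ' j (j' : ℤ) hE hEγ' hfγ hRγ
        exact nsData_no_yes hp hp5 hp4 haH he3H (Vl 2) (red 2) hV _ j (j' : ℤ) H
      · -- type (p ∤ c, 3 ∤ c)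
        obtain ⟨i, hEγ'⟩ := hE3 γ' (by rw [hγ'c]; exact h3c)
        have H := twoSeries_no_no hp.pos (E : ℍ → ℂ) (R : ℍ → ℂ) (f₀ : ℍ → ℂ) e3
          (fun k => (a (p * k) : ℂ)) γ γ' i j (j' : ℤ) he3mul hEγ' hfγ hRγ
        exact nsData_no_no hp hp5 hp4 haH he3H (Vl 2) (red 2) hV _ i j (j' : ℤ) H

end Fermat.Agent.S16.UBc
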